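import Fermat.Agent.SemistableHecke.Degeneracy
import Fermat.Agent.Density.Frobenius
import Fermat.Agent.Density.Inertia

/-!
# Degeneracy pushforwards commute with good Hecke operators on torsion

On torsion of `p`-power order a good Hecke operator `T_ℓ`, `ℓ ≠ p`, is `σ + ℓ σ⁻¹` for a Frobenius
`σ` at `ℓ`, at every level, and pushforwards are Galois equivariant.  The result used in
`Galois.Main` is `pushJ_eq_zero_of_kill`.
-/

set_option autoImplicit false

noncomputable section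

open ModularCurve FLTAgent.HeckeJacobian FLTAgent.GaloisAttach FLTAgent.SemistableHecke
open FLTAgent.Density (GalQ Qbar)

namespace FLTAgent.CarayolSquare.Galois

/-- `T_ℓ` on torsion through a Frobenius at `ℓ`. -/
theorem heckeGen_smul_eq {N p : ℕ} [NeZero N] (hJ : JacobianInputs N p) {ℓ : Nat.Primes}
    (hℓ : ¬ (ℓ : ℕ) ∣ N * p) {A : ValuationSubring Qbar} (hA : A.LiesOverPrime (ℓ : ℕ)) {σ : GalQ}
    (hσ : A.IsFrobeniusAt σ (ℓ : ℕ)) {k : ℕ} {x : JZero N} (hx : (p ^ k) • x = 0) :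
    letI := heckeModuleBar N
    heckeGen ℓ • x = σ • x + (ℓ : ℕ) • σ⁻¹ • x := by
  let := heckeModuleBar N
  have := hJ.smulComm
  obtain ⟨J', _, _, sp, F, hsp, hrel⟩ := hJ.specialization (ℓ : ℕ) ℓ.2 hℓ A hA
  have hy : (p ^ k) • σ⁻¹ • x = 0 := by rw [smul_comm (p ^ k) σ⁻¹ x, hx, smul_zero]
  set y := σ⁻¹ • x with hydef
  have hxy : x = σ • y := (smul_inv_smul σ x).symm
  have hσ0 : ∀ z : JZero N, (p ^ k) • z = 0 → (p ^ k) • σ • z = 0 := fun z hz => by
    rw [smul_comm (p ^ k) σ z, hz, smul_zero]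
  have h0 : σ • σ • y - heckeGen ℓ • σ • y + (ℓ : ℕ) • y = 0 := by
    refine hsp.injective_torsion _ ⟨k, ?_⟩ ?_
    · rw [nsmul_add, nsmul_sub, hσ0 _ (hσ0 _ hy), ← nsmul_left_comm, hy, nsmul_zero,
        smul_comm (p ^ k) (heckeGen ℓ), hσ0 _ hy, smul_zero, sub_zero, add_zero]
    · rw [map_add, map_sub, map_nsmul, hsp.hecke_comm, hsp.frobenius_comm σ hσ,
        hsp.frobenius_comm σ hσ]
      exact hrel (sp y)
  rw [← hxy] at h0
  calc heckeGen ℓ • x = σ • x + (ℓ : ℕ) • y - (σ • x - heckeGen ℓ • x + (ℓ : ℕ) • y) := by abel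
    _ = _ := by rw [h0, sub_zero]

variable {N M d p : ℕ} [NeZero N] [NeZero M] [NeZero d]

/-- A good Hecke element commutes with a degeneracy pushforward on torsion. -/
theorem pushJ_scaled_smul [Fact p.Prime] (hJN : JacobianInputs N p) (hJM : JacobianInputs M p)
    (h : N * d ∣ M) {M' : ℕ} {S : Set ℕ} (hpS : p ∈ S) (hNM' : N ∣ M') (hMM' : M ∣ M')
    (e : GoodRing M' S) {k : ℕ} {x : JZero M} (hx : (p ^ k) • x = 0) :
    pushJ (scaled h) (letI := heckeModuleBar M; goodIncl M' S e • x) =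
      (letI := heckeModuleBar N; goodIncl M' S e • pushJ (scaled h) x) := by
  rw [heckeModuleBar_smul_def (heckeOperatorsCommuteBar M),
    heckeModuleBar_smul_def (heckeOperatorsCommuteBar N)]
  induction e using MvPolynomial.induction_on generalizing x with
  | C a => simp [goodIncl, ← MvPolynomial.algebraMap_eq]
  | add u v hu hv => simp only [map_add, LinearMap.add_apply, hu hx, hv hx]
  | mul_X u i hu =>
    have hX : goodIncl M' S (MvPolynomial.X i) = heckeGen i.1 := by simp [goodIncl]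
    have hp : p.Prime := Fact.out
    have hnd : ∀ L : ℕ, L ∣ M' → ¬ (i.1 : ℕ) ∣ L * p := fun L hL hd =>
      ((Nat.Prime.dvd_mul i.1.2).mp hd).elim (fun hh => i.2.1 (hh.trans hL))
        fun hh => i.2.2 ((Nat.prime_dvd_prime_iff_eq i.1.2 hp).mp hh ▸ hpS)
    obtain ⟨A, hA⟩ := Density.exists_liesOverPrime i.1.2
    obtain ⟨σ, hσ⟩ := Density.exists_isFrobeniusAt A i.1.2 hA
    have hTx : (p ^ k) • heckeEvalBar (heckeOperatorsCommuteBar M) (goodIncl M' S
        (MvPolynomial.X i)) x = 0 := by rw [← map_nsmul, hx, map_zero]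
    rw [map_mul, map_mul, map_mul, Module.End.mul_apply, Module.End.mul_apply, hu hTx]
    congr 1
    have hpx : (p ^ k) • pushJ (scaled h) x = 0 := by rw [← map_nsmul, hx, map_zero]
    rw [hX, ← heckeModuleBar_smul_def (heckeOperatorsCommuteBar M),
      ← heckeModuleBar_smul_def (heckeOperatorsCommuteBar N),
      heckeGen_smul_eq hJM (hnd M hMM') hA hσ hx, heckeGen_smul_eq hJN (hnd N hNM') hA hσ hpx,
      map_add, map_nsmul, pushJ_galois _ σ (intertwines_scaled h σ),
      pushJ_galois _ σ⁻¹ (intertwines_scaled h σ⁻¹)]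

variable {q N₁ : ℕ} [NeZero q] [NeZero N₁]

/-- An element killing the torsion at level `N₁` sends torsion of level `N₁ q` to classes killed by
both pushforwards. -/
theorem pushJ_eq_zero_of_kill [Fact p.Prime]
    (hJ : ∀ (N : ℕ) [NeZero N], ∀ p : ℕ, p.Prime → JacobianInputs N p) {S : Set ℕ} (hpS : p ∈ S)
    (e : GoodRing (N₁ * q) S)
    (hkill : letI := heckeModuleBar N₁; ∀ (k : ℕ) (z : JZero N₁), (p ^ k) • z = 0 →
      goodIncl (N₁ * q) S e • z = 0)
    {k : ℕ} {x : JZero (N₁ * q)} (hx : (p ^ k) • x = 0) :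
    pushJ (heckeAlphaBar Qbar N₁ q) (letI := heckeModuleBar (N₁ * q);
        goodIncl (N₁ * q) S e • x) = 0 ∧
      pushJ (heckeBetaBar Qbar N₁ q) (letI := heckeModuleBar (N₁ * q);
        goodIncl (N₁ * q) S e • x) = 0 := by
  have hp : p.Prime := Fact.out
  refine ⟨?_, ?_⟩
  · rw [heckeAlphaBar_eq, pushJ_scaled_smul (hJ N₁ p hp) (hJ _ p hp) _ hpS (dvd_mul_right N₁ q)
      dvd_rfl e hx]
    exact hkill k _ (by rw [← map_nsmul, hx, map_zero])
  · rw [heckeBetaBar_eq, pushJ_scaled_smul (hJ N₁ p hp) (hJ _ p hp) _ hpS (dvd_mul_right N₁ q)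
      dvd_rfl e hx]
    exact hkill k _ (by rw [← map_nsmul, hx, map_zero])

end FLTAgent.CarayolSquare.Galois
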