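import Fermat.Agent.CarayolSquare.Galois.Matrices
import Fermat.Agent.SemistableHecke.Transfer
import Mathlib.RingTheory.DiscreteValuationRing.Basic

/-!
# Torsion fixed by a unipotent inertia group, for a linked matrix representation

On the part of the torsion seen by an approximate projector, an element of `ℤ[G]` with matrix zero
commutes past commutators, hence vanishes up to a bounded factor (`exists_smul_act_eq_zero`).
`false_of_fixed` turns a bound on fixed torsion into a contradiction with unipotent inertia.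
-/

set_option autoImplicit false

noncomputable section

namespace FLTAgent.CarayolSquare.Galois

open FLTAgent.GaloisAttach FLTAgent.SemistableHecke.Transfer MonoidAlgebra

variable {G R J A : Type*} [Group G] [CommRing R] [AddCommGroup J] [Module R J]
  [DistribMulAction G J] [SMulCommClass G R J] [CommRing A]
variable {p : ℕ} [Fact p.Prime] {I : Ideal A} [IsAdicComplete I A] {hpI : (p : A) ∈ I}
variable {χ : G →* ℤ_[p]} {lam : R →+* A} {c : ℕ} {ρ : G →* Matrix (Fin 2) (Fin 2) A}

omit [SMulCommClass G R J] [Fact p.Prime] in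
theorem pow_nsmul_act {n : ℕ} (X : MonoidAlgebra ℤ G) {x : J} (hx : (p ^ n) • x = 0) :
    (p ^ n) • act G J X x = 0 := by
  rw [← map_nsmul, hx, map_zero]

/-- An element killing, modulo `p ^ n`, whatever is small at `lam`. -/
def SmallKills (lam : R →+* A) (I : Ideal A) (J : Type*) [AddCommGroup J] [Module R J] (p : ℕ)
    (n s : ℕ) (y : R) : Prop :=
  ∀ t : R, lam t ∈ I ^ s → ∀ x : J, (p ^ n) • x = 0 → y • t • x = 0

variable (L : Linked (J := J) χ lam hpI c ρ)

include L in
theorem smul_act_of_mat_eq_zero {n s : ℕ} (hns : n ≤ s) {y : R}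
    (hy : SmallKills lam I J p n s y) {R0 : MonoidAlgebra ℤ G} (h0 : mat G A ρ R0 = 0) (g : G)
    {x : J} (hx : (p ^ n) • x = 0) :
    y • act G J R0 (g • x) = chiNat χ (s + c) g • g⁻¹ • y • act G J R0 x := by
  set m := s + c
  have hN : ∀ z : J, (p ^ n) • z = 0 → (p ^ m) • z = 0 := fun z hz => by
    obtain ⟨d, hd⟩ := Nat.exists_eq_add_of_le (show n ≤ m by omega)
    rw [hd, pow_add, mul_nsmul, hz, smul_zero]
  have cross : ∀ (h : G) (z : J), (p ^ n) • z = 0 →
      y • (chiNat χ m h • act G J R0 (h⁻¹ • z) + h • actAdj χ m R0 z) = 0 := fun h z hz => by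
    obtain ⟨d, hd, hl⟩ := exists_cross L s R0 (MonoidAlgebra.of ℤ G h)
    rw [h0, zero_mul, Matrix.trace_zero, sub_zero] at hl
    have h1 := hy d hl z hz
    rw [← hd z (hN z hz), MonoidAlgebra.of_apply, act_single, actAdj_single, one_smul, one_smul,
      map_nsmul] at h1
    exact h1
  have neg : ∀ z : J, (p ^ n) • z = 0 → y • actAdj χ m R0 z = -(y • act G J R0 z) := fun z hz => by
    refine eq_neg_of_add_eq_zero_right ?_
    have h1 := cross 1 z hz
    rw [inv_one, one_smul, one_smul, smul_add] at h1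
    rwa [nsmul_eq_of_natCast_eq (b := 1) (by rw [natCast_chiNat, map_one, map_one, Nat.cast_one])
      (pow_nsmul_act R0 (hN z hz)), one_nsmul] at h1
  have hgx := pow_nsmul_smul_zero g hx
  have h1 := cross g (g • x) hgx
  rw [inv_smul_smul, smul_add, ← smul_comm g y, neg _ hgx, smul_neg, add_neg_eq_zero,
    smul_comm y (chiNat χ m g)] at h1
  rw [← smul_comm g⁻¹ (chiNat χ m g), h1, inv_smul_smul]

include L in
/-- Elements with matrix zero commute past commutators on the part seen by `y`. -/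
theorem smul_act_mul_comm {n s : ℕ} (hns : n ≤ s) {y : R} (hy : SmallKills lam I J p n s y)
    {R0 : MonoidAlgebra ℤ G} (h0 : mat G A ρ R0 = 0) (g h : G) {x : J} (hx : (p ^ n) • x = 0) :
    y • act G J R0 (g • h • x) = y • act G J R0 (h • g • x) := by
  have hhx := pow_nsmul_smul_zero h hx
  rw [smul_act_of_mat_eq_zero L hns hy h0 g hhx, smul_act_of_mat_eq_zero L hns hy h0 h hx,
    ← mul_smul h g x, smul_act_of_mat_eq_zero L hns hy h0 (h * g) hx, mul_inv_rev, mul_smul,
    smul_comm g⁻¹ (chiNat χ (s + c) h), ← mul_smul (chiNat χ (s + c) g)]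
  refine nsmul_eq_of_natCast_eq (p := p) (k := s + c) ?_
    (pow_nsmul_smul_zero _ (pow_nsmul_smul_zero _ ?_))
  · rw [Nat.cast_mul, natCast_chiNat, natCast_chiNat, natCast_chiNat, ← map_mul, mul_comm,
      ← map_mul]
  · obtain ⟨d, hd⟩ := Nat.exists_eq_add_of_le (show n ≤ s + c by omega)
    rw [hd, pow_add, mul_nsmul, smul_comm _ y, pow_nsmul_act R0 hx, smul_zero, smul_zero]

include L in
/-- Elements with matrix zero vanish on the part seen by `y`, up to a fixed factor. -/
theorem exists_smul_act_eq_zero {n s : ℕ} (hns : n ≤ s) {y : R}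
    (hy : SmallKills lam I J p n s y) (g h : G) :
    ∃ d : R, lam d - 2 * (ρ g * ρ h - ρ h * ρ g).det ∈ I ^ s ∧
      ∀ R0 : MonoidAlgebra ℤ G, mat G A ρ R0 = 0 → ∀ x : J, (p ^ n) • x = 0 →
        y • d • act G J R0 x = 0 := by
  let C : MonoidAlgebra ℤ G :=
    MonoidAlgebra.of ℤ G g * MonoidAlgebra.of ℤ G h - MonoidAlgebra.of ℤ G h *
        MonoidAlgebra.of ℤ G g
  obtain ⟨d, hd, hl⟩ := exists_double_det L s C
  rw [map_sub, map_mul, map_mul, mat_of, mat_of] at hl
  refine ⟨d, hl, fun R0 h0 x hx => ?_⟩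
  have hN : (p ^ (s + c)) • x = 0 := by
    obtain ⟨e, he⟩ := Nat.exists_eq_add_of_le (show n ≤ s + c by omega)
    rw [he, pow_add, mul_nsmul, hx, smul_zero]
  have key : ∀ w : J, (p ^ n) • w = 0 → y • act G J R0 (act G J C w) = 0 := fun w hw => by
    have e : act G J C w = g • h • w - h • g • w := by
      simp only [C, map_sub, map_mul, MonoidAlgebra.of_apply]
      show act G J (single g 1) (act G J (single h 1) w) -
        act G J (single h 1) (act G J (single g 1) w) = _
      simp only [act_single, one_smul]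
    rw [e, map_sub, smul_sub, smul_act_mul_comm L hns hy h0 g h hw, sub_self]
  rw [← act_smul, ← hd x hN]
  refine key _ ?_
  rw [smul_comm _ (2 : ℕ), ← map_nsmul, hx, map_zero, smul_zero]

section DVR

variable [IsDomain A] [IsDiscreteValuationRing A]

omit [IsAdicComplete I A] in
theorem exists_not_mem_pow (hI : I = IsLocalRing.maximalIdeal A) {a : A} (ha : a ≠ 0) :
    ∃ m, ∀ (b : A) (j : ℕ), b ∉ I ^ j → a * b ∉ I ^ (m + j) := by
  obtain ⟨ϖ, hϖ⟩ := IsDiscreteValuationRing.exists_irreducible A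
  obtain ⟨m, hm⟩ := IsDiscreteValuationRing.associated_pow_irreducible ha hϖ
  refine ⟨m, fun b j hb h => hb ?_⟩
  rw [hI, hϖ.maximalIdeal_eq, Ideal.span_singleton_pow, Ideal.mem_span_singleton] at h ⊢
  rw [pow_add] at h
  exact (mul_dvd_mul_iff_left (pow_ne_zero m hϖ.ne_zero)).mp
    (h.trans (mul_dvd_mul hm.dvd dvd_rfl))

include L in
/-- The engine: bounded torsion fixed by a unipotent group contradicts absolute irreducibility. -/
theorem false_of_fixed (hI : I = IsLocalRing.maximalIdeal A) (h2 : (2 : A) ≠ 0) {a b : G}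
    (hab : (ρ a * ρ b - ρ b * ρ a).det ≠ 0) (In : Subgroup G)
    (htr : ∀ τ ∈ In, (ρ τ).trace = 2) (hdet : ∀ τ ∈ In, (ρ τ).det = 1)
    {c₂ : ℕ} (s : ℕ → ℕ) (hproj : ∀ n, n ≤ s n ∧ ∃ y : R, lam y ∉ I ^ c₂ ∧
      SmallKills lam I J p n (s n) y)
    {e : R} (he : lam e ≠ 0) (hp : (p : A) ≠ 0) (c₀ : ℕ)
    (hfix : ∀ (k : ℕ) (z : J), (p ^ k) • z = 0 → (∀ τ ∈ In, τ • z = z) →
      (p ^ c₀) • e • z = 0) : False := by
  classical
  obtain ⟨X0, hX0, hIX0⟩ : ∃ X0 : MonoidAlgebra ℤ G, mat G A ρ X0 ≠ 0 ∧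
      ∀ τ ∈ In, mat G A ρ ((MonoidAlgebra.of ℤ G τ - 1) * X0) = 0 := by
    rcases exists_fixed h2 In htr hdet with h | ⟨σ, hσ, hfixσ⟩
    · refine ⟨1, by rw [map_one]; exact one_ne_zero, fun τ hτ => ?_⟩
      rw [mul_one, map_sub, mat_of, map_one, h τ hτ, sub_self]
    · refine ⟨MonoidAlgebra.of ℤ G σ - 1, ?_, fun τ hτ => ?_⟩
      · rw [map_sub, mat_of, map_one]
        exact sub_ne_zero.mpr hσ
      · rw [map_mul, map_sub, map_sub, mat_of, mat_of, map_one]
        exact hfixσ τ hτ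
  obtain ⟨P, hP, hPform⟩ : ∃ P : MonoidAlgebra ℤ G, (mat G A ρ P).det ≠ 0 ∧
      ∀ (r : R) (x : J), (∀ Y Z, r • act G J (Y * X0 * Z) x = 0) → r • act G J P x = 0 := by
    rcases exists_det_ne_zero h2 hab hX0 with h | ⟨g, g', h⟩
    · exact ⟨X0, h, fun r x hr => by simpa using hr 1 1⟩
    · refine ⟨X0 + MonoidAlgebra.of ℤ G g * X0 * MonoidAlgebra.of ℤ G g', ?_, fun r x hr => ?_⟩
      · rwa [map_add, map_mul, map_mul, mat_of, mat_of]
      · have e1 := hr 1 1
        rw [one_mul, mul_one] at e1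
        rw [map_add, end_add, smul_add, e1, hr, add_zero]
  set C : A := (ρ a * ρ b - ρ b * ρ a).det
  set D : A := (mat G A ρ P).det
  obtain ⟨m, hm⟩ := exists_not_mem_pow hI (a := (p : A) ^ c₀ * lam e * (2 * C) * (2 * D))
    (mul_ne_zero (mul_ne_zero (mul_ne_zero (pow_ne_zero _ hp) he) (mul_ne_zero h2 hab))
      (mul_ne_zero h2 hP))
  set k := m + c₂
  set n := k + c
  obtain ⟨hns, y, hy0, hy⟩ := hproj n
  obtain ⟨d, hd, hdkill⟩ := exists_smul_act_eq_zero L hns hy a b
  obtain ⟨d', hd', hl'⟩ := exists_double_det L k P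
  let f : R := (p ^ c₀ : ℕ) * e * (y * d)
  have hf : ∀ x : J, (p ^ n) • x = 0 → ∀ Y Z, f • act G J (Y * X0 * Z) x = 0 := fun x hx Y Z => by
    rw [map_mul, map_mul, end_mul, end_mul, ← act_smul]
    have hz := pow_nsmul_act Z hx
    suffices h : f • act G J X0 (act G J Z x) = 0 by rw [h, map_zero]
    set w := act G J Z x
    simp only [f, mul_smul, Nat.cast_smul_eq_nsmul]
    refine hfix n _ ?_ fun τ hτ => ?_
    · rw [smul_comm _ y, smul_comm _ d, pow_nsmul_act X0 hz, smul_zero, smul_zero]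
    · rw [smul_comm τ y, smul_comm τ d, ← sub_eq_zero, ← smul_sub, ← smul_sub]
      have e1 : τ • act G J X0 w - act G J X0 w =
          act G J ((MonoidAlgebra.of ℤ G τ - 1) * X0) w := by
        rw [sub_mul, one_mul, map_sub, map_mul, MonoidAlgebra.of_apply]
        show _ = act G J (single τ 1) (act G J X0 w) - act G J X0 w
        rw [act_single, one_smul]
      rw [e1]
      exact hdkill _ (hIX0 τ hτ) w hz
  have h0 : lam (f * d') ∈ I ^ k := L.kill k _ fun x hx => by
    rw [mul_smul, ← hd' x hx]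
    refine hPform f _ (hf _ ?_)
    rw [smul_comm _ (2 : ℕ), pow_nsmul_actAdj P hx, smul_zero]
  simp only [f, map_mul, Nat.cast_pow, map_pow, map_natCast] at h0
  change lam d' - 2 * D ∈ I ^ k at hl'
  have hdk : lam d - 2 * C ∈ I ^ k := Ideal.pow_le_pow_right (by omega) hd
  refine hm (lam y) c₂ hy0 ?_
  have h1 := sub_mem (sub_mem h0
    (Ideal.mul_mem_left _ ((p : A) ^ c₀ * lam e * lam y * lam d) hl'))
    (Ideal.mul_mem_left _ ((p : A) ^ c₀ * lam e * lam y * (2 * D)) hdk)
  convert h1 using 1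
  ring

end DVR

end FLTAgent.CarayolSquare.Galois
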