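import Fermat.Agent.CarayolSquare.Galois.Projector
import Fermat.Agent.CarayolSquare.Galois.Push
import Fermat.Agent.CarayolSquare.Galois.Sandwich
import Fermat.Agent.CarayolSquare.Interface
import Fermat.Agent.SemistableHecke.Steinberg
import Fermat.Agent.DefRing.Setup
import Fermat.Agent.Newforms.Semisimple
import Fermat.Agent.GaloisImage.Rep
import Fermat.Prelude.Def_GaloisRep_LocalConditions
import Fermat.Prelude.Def_GaloisRep_Residual

/-!
# Inertia at a prime whose square exactly divides the level (S36), given the local input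

`exists_galoisRep_not_unipotent`: assuming `CoreInput` and the inputs on Jacobians, some Galois
representation attached to a newform of level `M` is non-unipotent on inertia at every `q ≠ p`
with `q² ∥ M`.
-/

set_option autoImplicit false

noncomputable section

open Polynomial

namespace FLTAgent.CarayolSquare.Galois

open ModularCurve FLTAgent.GaloisAttach FLTAgent.SemistableHecke
open FLTAgent.Density (GalQ Qbar)

variable {p : ℕ} [Fact p.Prime] {O : Type} [CommRing O] [IsDomain O] [IsDiscreteValuationRing O]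
  [IsAdicComplete (IsLocalRing.maximalIdeal O) O] [Finite (IsLocalRing.ResidueField O)]
  [CharZero O]

omit [IsAdicComplete (IsLocalRing.maximalIdeal O) O] [Finite (IsLocalRing.ResidueField O)]
  [CharZero O] in
/-- The commutator with complex conjugation of some Galois matrix is nonsingular. -/
theorem exists_comm_det_ne_zero (hpO : (p : O) ∈ IsLocalRing.maximalIdeal O) (hp2 : p ≠ 2)
    (M : DefRing.MatRep O) (hM : DefRing.MatCont M)
    (habs : (DefRing.ofMatrix M hM).residual.IsAbsolutelyIrreducible)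
    (hodd : (DefRing.ofMatrix M hM).residual.IsOdd) :
    ∃ a b, (M a * M b - M b * M a).det ≠ 0 := by
  let k := IsLocalRing.ResidueField O
  let f := DefRing.mapRep (IsLocalRing.residue O) M
  have hf : DefRing.resMatRep (DefRing.ofMatrix M hM).residual
      (Algebra.TensorProduct.basis k (DefRing.stdBasis M hM)) = f := by
    rw [DefRing.resMatRep_residual, DefRing.matRep_ofMatrix]
  have h2 : (2 : k) ≠ 0 := by
    intro h
    rw [← map_ofNat (IsLocalRing.residue O), IsLocalRing.residue_eq_zero_iff] at h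
    obtain ⟨m, hm⟩ := (Nat.Prime.eq_two_or_odd' (Fact.out : p.Prime)).resolve_left hp2
    refine (IsLocalRing.maximalIdeal.isMaximal O).ne_top ((Ideal.eq_top_iff_one _).mpr ?_)
    have h1 := sub_mem hpO (Ideal.mul_mem_right (m : O) _ h)
    simp [hm] at h1
  have hcc : complexConjugation * complexConjugation = 1 := complexConjugation_mul_self
  have hc : f complexConjugation * f complexConjugation = 1 := by rw [← map_mul, hcc, map_one]
  have hdet : (f complexConjugation).det = -1 := by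
    rw [← hf]
    exact (LinearMap.det_toMatrix _ _).trans
      (hodd complexConjugation hcc GaloisImage.complexConjugation_ne_one)
  obtain ⟨g, hg⟩ := exists_det_comm_ne_zero h2 hc hdet fun v hv => by
    rw [← hf]
    exact DefRing.no_common_eigenvector _ habs _ v hv
  refine ⟨complexConjugation, g, fun h0 => hg ?_⟩
  have h1 := RingHom.map_det (IsLocalRing.residue O)
    (M complexConjugation * M g - M g * M complexConjugation)
  rw [h0, map_zero, map_sub, map_mul, map_mul] at h1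
  exact h1.symm

/-- No unipotent inertia at `q` when `M = N₁ q` and `q` exactly divides `N₁`. -/
theorem not_isUnipotentOnInertiaAt {M : ℕ} [NeZero M]
    {g : CuspForm (CongruenceSubgroup.Gamma0 M) 2} (hg : g.IsNewform) (S : Finset ℕ)
    (hpO : (p : O) ∈ IsLocalRing.maximalIdeal O) (hp2 : p ≠ 2)
    (χg : CuspForm.heckeAlgebra M 2 (↑S : Set ℕ) →+* ℂ)
    (hχg : ∀ (ℓ : ℕ) (hℓ : ℓ.Prime) (hℓM : ¬ ℓ ∣ M) (hℓS : ℓ ∉ (↑S : Set ℕ)),
      χg (CuspForm.heckeAlgebra.T hℓ hℓM hℓS) = ModularFormClass.qCoeff g ℓ)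
    (ι : χg.range →+* O) (hpS : p ∈ S) (hMS : ∀ q : ℕ, q.Prime → q ∣ M → q ∈ S)
    (hJ : ∀ (N : ℕ) [NeZero N], ∀ p : ℕ, p.Prime → JacobianInputs N p)
    (hF : FrobeniusDivisions)
    (hkill : ∀ (M₀ : ℕ) [NeZero M₀] (h : M₀ ∣ M), FormsKillTorsion M M₀ p h)
    (hcore : CoreInput)
    (T : AttachedTrace M p (↑S : Set ℕ) (IsLocalRing.maximalIdeal O) (ι.comp χg.rangeRestrict))
    {c : ℕ} (L : TraceLink hpO T c)
    (R : IntegralMatrixRep M p (↑S : Set ℕ) (ι.comp χg.rangeRestrict))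
    (habs : R.toRep.residual.IsAbsolutelyIrreducible) (hodd : R.toRep.residual.IsOdd)
    {q N₁ : ℕ} [NeZero q] [NeZero N₁] (hq : q.Prime) (hqp : q ≠ p) (hM : M = N₁ * q)
    (hqN : q ∣ N₁) (hq2 : ¬ q ^ 2 ∣ N₁) :
    ¬ R.toRep.IsUnipotentOnInertiaAt q := by
  intro hunip
  subst hM
  classical
  set M := N₁ * q
  have hp : p.Prime := Fact.out
  let I := IsLocalRing.maximalIdeal O
  let := heckeModuleBar M
  have := (hJ M p hp).smulComm
  let : Module (GoodRing M (↑S : Set ℕ)) (JZero M) :=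
    Module.compHom (JZero M) (goodIncl M (↑S : Set ℕ))
  have : SMulCommClass GalQ (GoodRing M (↑S : Set ℕ)) (JZero M) :=
    ⟨fun σ r x => (smul_comm σ (goodIncl M (↑S : Set ℕ) r) x : _)⟩
  let φ : CuspForm.heckeAlgebra M 2 (↑S : Set ℕ) →+* O := ι.comp χg.rangeRestrict
  let lam : GoodRing M (↑S : Set ℕ) →+* O := φ.comp (goodTheta M (↑S : Set ℕ))
  have htr : ∀ σ, (R.M σ).trace = T.f σ := trace_eq_attached hF T R.M R.continuous R.frob
  have hdet : ∀ σ, (R.M σ).det = T.ε σ :=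
    det_eq_of_trace_eq (fun a ha => (mul_eq_zero.mp ha).resolve_left two_ne_zero) T R.M htr
  have hlink : Transfer.Linked (J := JZero M) (cyc p) lam hpO c R.M :=
    { det_eq := fun σ => (hdet σ).trans (L.det_eq σ)
      exists_wit := L.exists_wit
      spec := fun k σ t ht => (htr σ).symm ▸ L.spec k σ t ht
      kill := fun k t ht => L.kill k t ht }
  obtain ⟨a, b, hab⟩ := exists_comm_det_ne_zero hpO hp2 R.M R.continuous habs hodd
  obtain ⟨P, hP⟩ := Density.exists_liesOverPrime hq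
  have huni : ∀ τ ∈ P.inertiaSubgroupIn ℚ, (R.M τ).trace = 2 ∧ (R.M τ).det = 1 := fun τ hτ => by
    have h : LinearMap.charpoly (R.toRep.ρ τ) = X ^ 2 - C (R.M τ).trace * X + C (R.M τ).det :=
      charpoly_toLinAlgEquiv' (R.M τ)
    rw [hunip P hP τ hτ] at h
    have h0 := congrArg (Polynomial.eval 0) h
    have h1 := congrArg (Polynomial.eval 1) h
    simp at h0 h1
    exact ⟨by linear_combination h1 - h0, h0.symm⟩
  obtain ⟨c₀, hc₀⟩ := hcore q p N₁ hq hp hqp hqN hq2 P hP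
  have hdvd : N₁ ∣ M := dvd_mul_right N₁ q
  have hne : N₁ ≠ M := by
    intro h
    exact absurd ((mul_eq_left₀ (NeZero.ne N₁)).mp h.symm) hq.ne_one
  obtain ⟨e, he0, heg⟩ := exists_separator hF hJ hg hdvd hne S hMS
  have hMS' : ∀ r : ℕ, r.Prime → r ∣ M → r ∈ (↑S : Set ℕ) :=
    fun r hr hd => Finset.mem_coe.mpr (hMS r hr hd)
  have hχ : χg = Eigenforms.eigenChar hg.1 := eq_eigenChar hMS' hg.1 χg hχg
  have hint : ∀ x ∈ χg.range, IsIntegral ℤ x := by
    rintro x ⟨t, rfl⟩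
    rw [hχ]
    exact Eigenforms.isIntegral_eigenChar (MFIntegral.hasIntegralStructure M 2) hg.1 t
  have heO : lam e ≠ 0 := fun h => by
    have h0 := congrArg Subtype.val (eq_zero_of_map_eq_zero hint ι h)
    refine heg ?_
    rw [← hχ]
    exact h0
  have := Newforms.heckeAlgebra_isReduced hMS'
  have := Eigenforms.heckeAlgebra_moduleFinite (MFIntegral.hasIntegralStructure M 2) (↑S : Set ℕ)
  have := Eigenforms.heckeAlgebra_moduleFree (MFIntegral.hasIntegralStructure M 2) (↑S : Set ℕ)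
  obtain ⟨c₂, s, hproj⟩ := exists_projector hpO φ
  have hsurj := lowerTheta_surjective (dvd_refl M) hMS'
  have hproj' : ∀ n, n ≤ s n ∧ ∃ y : GoodRing M (↑S : Set ℕ), lam y ∉ I ^ c₂ ∧
      SmallKills lam I (JZero M) p n (s n) y := fun n => by
    obtain ⟨hn, y₀, hy₀, hy⟩ := hproj n
    obtain ⟨y, rfl⟩ := hsurj y₀
    refine ⟨hn, y, hy₀, fun t ht x hx => ?_⟩
    obtain ⟨r₀, hr⟩ := hy (goodTheta M _ t) ht
    obtain ⟨r, rfl⟩ := hsurj r₀
    have h0 : lowerTheta M M (dvd_refl M) _ (y * t - (p ^ n) • r) = 0 := by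
      rw [map_sub, map_mul, map_nsmul, ← hr]
      exact sub_self _
    have h1 : (y * t - (p ^ n) • r) • x = 0 := hkill M (dvd_refl M) _ _ h0 n x hx
    rwa [sub_smul, mul_smul, smul_assoc, smul_comm (p ^ n) r x, hx, smul_zero, sub_zero] at h1
  refine false_of_fixed hlink rfl two_ne_zero hab (P.inertiaSubgroupIn ℚ)
    (fun τ hτ => (huni τ hτ).1) (fun τ hτ => (huni τ hτ).2) s hproj' heO
    (Nat.cast_ne_zero.mpr hp.ne_zero) c₀ fun k z hz hfixed => ?_
  obtain ⟨hα, hβ⟩ := pushJ_eq_zero_of_kill (q := q) (N₁ := N₁) hJ (Finset.mem_coe.mpr hpS) e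
    (fun k w hw => hkill N₁ hdvd _ e he0 k w hw) hz
  refine hc₀ k (e • z) (by rw [smul_comm (p ^ k) e z, hz, smul_zero]) (fun τ hτ => ?_) hα hβ
  rw [smul_comm τ e z, hfixed τ hτ]

/-- Statement S36, given the inputs. -/
theorem exists_galoisRep_not_unipotent
    {M : ℕ} [NeZero M] {g : CuspForm (CongruenceSubgroup.Gamma0 M) 2} (hg : g.IsNewform)
    (p : ℕ) [Fact p.Prime] (S : Finset ℕ)
    (O : Type) [CommRing O] [IsDomain O] [IsDiscreteValuationRing O]
    [IsAdicComplete (IsLocalRing.maximalIdeal O) O] [Finite (IsLocalRing.ResidueField O)]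
    [CharZero O] (hpO : (p : O) ∈ IsLocalRing.maximalIdeal O) (hp2 : p ≠ 2)
    (χg : CuspForm.heckeAlgebra M 2 (↑S : Set ℕ) →+* ℂ)
    (hχg : ∀ (ℓ : ℕ) (hℓ : ℓ.Prime) (hℓM : ¬ ℓ ∣ M) (hℓS : ℓ ∉ (↑S : Set ℕ)),
      χg (CuspForm.heckeAlgebra.T hℓ hℓM hℓS) = ModularFormClass.qCoeff g ℓ)
    (ι : χg.range →+* O) (hpS : p ∈ S) (hMS : ∀ q : ℕ, q.Prime → q ∣ M → q ∈ S)
    (hres : ∀ (O'' : Type) [CommRing O''] [IsDomain O''] [IsDiscreteValuationRing O'']
      [IsAdicComplete (IsLocalRing.maximalIdeal O'') O'']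
      [Finite (IsLocalRing.ResidueField O'')] [CharZero O'']
      [Algebra O O''] [Module.Finite O O''] [IsLocalHom (algebraMap O O'')],
      Function.Injective (algebraMap O O'') → ∀ (ρ : GaloisRepAdic O''),
      (∀ (ℓ : ℕ) (hℓ : ℓ.Prime) (_hℓp : ℓ ≠ p) (hℓM : ¬ ℓ ∣ M) (hℓS : ℓ ∉ (↑S : Set ℕ)),
        ∀ A : ValuationSubring (AlgebraicClosure ℚ), A.LiesOverPrime ℓ →
          ∀ σ : AlgebraicClosure ℚ ≃ₐ[ℚ] AlgebraicClosure ℚ, A.IsFrobeniusAt σ ℓ →
            LinearMap.charpoly (ρ.ρ σ) =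
              X ^ 2 - C (algebraMap O O'' ((ι.comp χg.rangeRestrict)
                  (CuspForm.heckeAlgebra.T hℓ hℓM hℓS))) * X + C ((ℓ : O'')))
      → ρ.residual.IsAbsolutelyIrreducible ∧ ρ.residual.IsOdd)
    (hJ : ∀ (N : ℕ) [NeZero N], ∀ p : ℕ, p.Prime → JacobianInputs N p)
    (hF : FrobeniusDivisions)
    (hkill : ∀ (M₀ : ℕ) [NeZero M₀] (h : M₀ ∣ M), FormsKillTorsion M M₀ p h)
    (hcore : CoreInput) :
    ∃ (O'' : Type) (_ : CommRing O'') (_ : IsDomain O'') (_ : IsDiscreteValuationRing O'')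
      (_ : IsAdicComplete (IsLocalRing.maximalIdeal O'') O'')
      (_ : Finite (IsLocalRing.ResidueField O''))
      (_ : CharZero O'') (_ : Algebra O O'') (_ : Module.Finite O O'')
      (_ : IsLocalHom (algebraMap O O'')),
      Function.Injective (algebraMap O O'') ∧
      ∃ ρ : GaloisRepAdic O'',
        (∀ (ℓ : ℕ) (hℓ : ℓ.Prime) (hℓM : ¬ ℓ ∣ M) (hℓS : ℓ ∉ (↑S : Set ℕ)),
          ∀ A : ValuationSubring (AlgebraicClosure ℚ), A.LiesOverPrime ℓ →
            ∀ σ : AlgebraicClosure ℚ ≃ₐ[ℚ] AlgebraicClosure ℚ, A.IsFrobeniusAt σ ℓ →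
              LinearMap.charpoly (ρ.ρ σ) =
                X ^ 2 - C (algebraMap O O'' ((ι.comp χg.rangeRestrict)
                    (CuspForm.heckeAlgebra.T hℓ hℓM hℓS))) * X + C ((ℓ : O''))) ∧
        (∀ q : ℕ, q.Prime → q ≠ p → M.factorization q = 2 → ¬ ρ.IsUnipotentOnInertiaAt q) := by
  classical
  have hp : p.Prime := Fact.out
  obtain ⟨T, c, L⟩ := exists_attachedTrace_link (hJ M p hp) hF S.finite_toSet
    (IsLocalRing.maximalIdeal O) hpO (ι.comp χg.rangeRestrict)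
  obtain ⟨R⟩ := T.exists_integralMatrixRep
  have hfrob : ∀ (ℓ : ℕ) (hℓ : ℓ.Prime) (hℓM : ¬ ℓ ∣ M) (hℓS : ℓ ∉ (↑S : Set ℕ)),
      ∀ A : ValuationSubring Qbar, A.LiesOverPrime ℓ → ∀ σ : GalQ, A.IsFrobeniusAt σ ℓ →
        LinearMap.charpoly (R.toRep.ρ σ) = X ^ 2 - C ((ι.comp χg.rangeRestrict)
          (CuspForm.heckeAlgebra.T hℓ hℓM hℓS)) * X + C ((ℓ : O)) := by
    intro ℓ hℓ hℓM hℓS A hA σ hσ
    obtain ⟨h1, h2⟩ := R.frob ℓ hℓ hℓM hℓS (fun h => hℓS (h ▸ hpS)) A hA σ hσ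
    rw [← h1, ← h2]
    exact charpoly_toLinAlgEquiv' (R.M σ)
  obtain ⟨habs, hodd⟩ := @hres O _ _ _ _ _ _ (Algebra.id O) _ ⟨fun _ ha => ha⟩ (fun _ _ h => h)
    R.toRep (fun ℓ hℓ _ hℓM hℓS A hA σ hσ => by
      rw [hfrob ℓ hℓ hℓM hℓS A hA σ hσ, Algebra.algebraMap_self, RingHom.id_apply])
  refine ⟨O, inferInstance, inferInstance, inferInstance, inferInstance, inferInstance,
    inferInstance, Algebra.id O, inferInstance, ⟨fun _ ha => ha⟩, fun _ _ h => h, R.toRep,
    fun ℓ hℓ hℓM hℓS A hA σ hσ => ?_, fun q hq hqp hfac => ?_⟩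
  · rw [hfrob ℓ hℓ hℓM hℓS A hA σ hσ, Algebra.algebraMap_self, RingHom.id_apply]
  · have hle : ∀ k, q ^ k ∣ M ↔ k ≤ 2 := fun k => by
      rw [hq.pow_dvd_iff_le_factorization (NeZero.ne M), hfac]
    obtain ⟨N₁, hN⟩ : q ∣ M := (pow_one q) ▸ (hle 1).mpr one_le_two
    have hM : M = N₁ * q := hN.trans (Nat.mul_comm q N₁)
    have : NeZero N₁ := ⟨fun h => NeZero.ne M (by rw [hM, h, Nat.zero_mul])⟩
    have : NeZero q := ⟨hq.ne_zero⟩
    refine not_isUnipotentOnInertiaAt hg S hpO hp2 χg hχg ι hpS hMS hJ hF hkill hcore T L R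
      habs hodd hq hqp hM ?_ fun h => absurd ((hle 3).mp ?_) (by norm_num)
    · have h2 := (hle 2).mpr le_rfl
      rw [hN, pow_two] at h2
      exact (Nat.mul_dvd_mul_iff_left hq.pos).mp h2
    · rw [hN, pow_succ']
      exact Nat.mul_dvd_mul_left q h

end FLTAgent.CarayolSquare.Galois
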