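import Mathlib.LinearAlgebra.Matrix.Adjugate
import Mathlib.LinearAlgebra.Matrix.Trace
import Mathlib.LinearAlgebra.Matrix.Charpoly.Coeff
import Mathlib.Tactic.LinearCombination

/-!
# Lemmas on `2 × 2` matrices for the Galois side of the statement on inertia at `q² ∥ M`

Trace criteria (`eq_zero_of_trace_mul`), fixed vectors of unipotent families (`exists_fixed`) and
`exists_det_comm_ne_zero`.
-/

set_option autoImplicit false

noncomputable section

open Matrix

namespace FLTAgent.CarayolSquare.Galois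

variable {A : Type*} [CommRing A] [IsDomain A]

local notation "M₂" => Matrix (Fin 2) (Fin 2)

/-- Nilpotent matrices with orthogonal product multiply to zero. -/
theorem mul_eq_zero_of_nilpotent (h2 : (2 : A) ≠ 0) {X Y : M₂ A} (hX : X.trace = 0)
    (hX' : X.det = 0) (hY : Y.trace = 0) (hY' : Y.det = 0) (hXY : (X * Y).trace = 0) :
    X * Y = 0 := by
  rw [trace_fin_two] at hX hY
  have hx : X 1 1 = -X 0 0 := by linear_combination hX
  have hy : Y 1 1 = -Y 0 0 := by linear_combination hY
  rw [det_fin_two, hx] at hX'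
  rw [det_fin_two, hy] at hY'
  simp only [trace_fin_two, Matrix.mul_apply, Fin.sum_univ_two, hx, hy] at hXY
  have hd : X 0 1 * Y 1 0 - X 1 0 * Y 0 1 = 0 := eq_zero_of_pow_eq_zero (n := 2) (by
    linear_combination (X 0 1 * Y 1 0 + X 1 0 * Y 0 1 - 2 * X 0 0 * Y 0 0) * hXY
      + 4 * Y 1 0 * Y 0 1 * hX' - 4 * X 0 0 ^ 2 * hY')
  have h00 : X 0 0 * Y 0 0 + X 0 1 * Y 1 0 = 0 :=
    (mul_eq_zero.mp (show 2 * (X 0 0 * Y 0 0 + X 0 1 * Y 1 0) = 0 by
      linear_combination hXY + hd)).resolve_left h2
  have h01 : X 0 0 * Y 0 1 - X 0 1 * Y 0 0 = 0 := eq_zero_of_pow_eq_zero (n := 2) (by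
    linear_combination (-(Y 0 1 ^ 2)) * hX' - X 0 1 ^ 2 * hY' - X 0 1 * Y 0 1 * hXY)
  have h10 : X 1 0 * Y 0 0 - X 0 0 * Y 1 0 = 0 := eq_zero_of_pow_eq_zero (n := 2) (by
    linear_combination (-(Y 1 0 ^ 2)) * hX' - X 1 0 ^ 2 * hY' - X 1 0 * Y 1 0 * hXY)
  ext i j
  fin_cases i <;> fin_cases j <;> simp [Matrix.mul_apply, Fin.sum_univ_two, hx, hy]
  · linear_combination h00
  · linear_combination h01
  · linear_combination h10
  · linear_combination h00 - hd

/-- A trace zero matrix orthogonal to `a`, `b` and their commutator vanishes, when the commutator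
is nonsingular. -/
theorem eq_zero_of_trace_mul (h2 : (2 : A) ≠ 0) {a b M : M₂ A} (hab : (a * b - b * a).det ≠ 0)
    (h0 : M.trace = 0) (ha : (M * a).trace = 0) (hb : (M * b).trace = 0)
    (hc : (M * (a * b - b * a)).trace = 0) : M = 0 := by
  set C := a * b - b * a with hC
  have hM : M 1 1 = -M 0 0 := by rw [trace_fin_two] at h0; linear_combination h0
  have key : (2 * C.det) • M =
      -((M * a).trace • (b * C - C * b) + (M * b).trace • (C * a - a * C) + (M * C).trace • C) := by
    ext i j
    fin_cases i <;> fin_cases j <;>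
      simp [hC, det_fin_two, trace_fin_two, Matrix.mul_apply, Fin.sum_univ_two, hM] <;> ring
  rw [ha, hb, hc, zero_smul, zero_smul, zero_smul, add_zero, add_zero, neg_zero] at key
  exact (smul_eq_zero.mp key).resolve_left (mul_ne_zero h2 hab)

variable {G : Type*} [Group G] {ρ : G →* M₂ A}

/-- The trace form is nondegenerate on the image of a representation with a nonsingular
commutator. -/
theorem exists_trace_mul_ne_zero (h2 : (2 : A) ≠ 0) {a b : G}
    (hab : (ρ a * ρ b - ρ b * ρ a).det ≠ 0) {M : M₂ A} (hM : M ≠ 0) :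
    ∃ x : G, (M * ρ x).trace ≠ 0 := by
  by_contra h
  push Not at h
  refine hM (eq_zero_of_trace_mul h2 hab ?_ (h a) (h b) ?_)
  · simpa using h 1
  · rw [mul_sub, trace_sub, ← map_mul, ← map_mul, h, h, sub_zero]

/-- A nonzero matrix generates, two-sidedly, a nonsingular one. -/
theorem exists_det_ne_zero (h2 : (2 : A) ≠ 0) {a b : G}
    (hab : (ρ a * ρ b - ρ b * ρ a).det ≠ 0) {M : M₂ A} (hM : M ≠ 0) :
    M.det ≠ 0 ∨ ∃ g h : G, (M + ρ g * M * ρ h).det ≠ 0 := by
  classical
  refine or_iff_not_imp_left.mpr fun hdet => ?_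
  rw [not_not] at hdet
  obtain ⟨g, hg⟩ : ∃ g, M.adjugate * ρ g * M ≠ 0 := by
    by_contra hcon
    push Not at hcon
    have key : ∀ E : M₂ A, M * E * M.adjugate = 0 := fun E => by
      by_contra hne
      obtain ⟨x, hx⟩ := exists_trace_mul_ne_zero h2 hab hne
      refine hx ?_
      rw [mul_assoc (M * E), trace_mul_comm, ← mul_assoc, hcon, zero_mul, trace_zero]
    refine hM (Matrix.ext fun i j => ?_)
    by_contra hij
    have hadj : M.adjugate = 0 := Matrix.ext fun k l => by
      have := congrFun (congrFun (key (Matrix.single j k 1)) i) l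
      rw [Matrix.zero_apply, mul_assoc, Matrix.mul_apply, Finset.sum_eq_single j,
          Matrix.single_mul_apply_same,
        one_mul] at this
      · exact (mul_eq_zero.mp this).resolve_left hij
      · intro c _ hc
        rw [Matrix.single_mul_apply_of_ne _ _ _ _ _ hc, mul_zero]
      · exact fun h => absurd (Finset.mem_univ j) h
    rw [adjugate_fin_two] at hadj
    have e00 := congrFun (congrFun hadj 1) 1
    have e01 := congrFun (congrFun hadj 0) 1
    have e10 := congrFun (congrFun hadj 1) 0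
    have e11 := congrFun (congrFun hadj 0) 0
    simp at e00 e01 e10 e11
    fin_cases i <;> fin_cases j <;> simp_all
  obtain ⟨h, hh⟩ := exists_trace_mul_ne_zero h2 hab hg
  refine ⟨g, h, fun h0 => hh ?_⟩
  have hB : (ρ g * M * ρ h).det = 0 := by rw [det_mul, det_mul, hdet, mul_zero, zero_mul]
  have hsum : ∀ X Y : M₂ A, (X + Y).det = X.det + Y.det + (X.adjugate * Y).trace := fun X Y => by
    simp [det_fin_two, trace_fin_two, Fin.sum_univ_two, adjugate_fin_two,
      Matrix.vecMul, dotProduct]
    ring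
  rw [hsum, hdet, hB, add_zero, zero_add] at h0
  simpa only [mul_assoc] using h0

/-- A unipotent group of matrices fixes a nonzero element of the image from the left. -/
theorem exists_fixed (h2 : (2 : A) ≠ 0) (I : Subgroup G)
    (htr : ∀ τ ∈ I, (ρ τ).trace = 2) (hdet : ∀ τ ∈ I, (ρ τ).det = 1) :
    (∀ τ ∈ I, ρ τ = 1) ∨ ∃ σ : G, ρ σ ≠ 1 ∧ ∀ τ ∈ I, (ρ τ - 1) * (ρ σ - 1) = 0 := by
  refine or_iff_not_imp_left.mpr fun h => ?_
  push Not at h
  obtain ⟨σ, hσ, hne⟩ := h
  refine ⟨σ, hne, fun τ hτ => ?_⟩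
  have hnil : ∀ x ∈ I, (ρ x - 1).trace = 0 ∧ (ρ x - 1).det = 0 := fun x hx => by
    have h1 := htr x hx
    have h3 := hdet x hx
    rw [trace_fin_two] at h1
    rw [det_fin_two] at h3
    constructor
    · rw [trace_sub, trace_fin_two, trace_one, Fintype.card_fin]
      push_cast
      linear_combination h1
    · simp only [det_fin_two, Matrix.sub_apply, one_apply_eq, one_apply_ne zero_ne_one,
        one_apply_ne one_ne_zero, sub_zero]
      linear_combination h3 - h1
  refine mul_eq_zero_of_nilpotent h2 (hnil τ hτ).1 (hnil τ hτ).2 (hnil σ hσ).1 (hnil σ hσ).2 ?_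
  rw [sub_mul, mul_sub, one_mul, mul_one, ← map_mul, trace_sub, trace_sub, trace_sub,
    htr _ (mul_mem hτ hσ), htr τ hτ, htr σ hσ, trace_one, Fintype.card_fin]
  norm_num

section Residual

variable {k : Type*} [Field k] {f : G →* M₂ k}

/-- An odd irreducible representation has a nonsingular commutator with an involution. -/
theorem exists_det_comm_ne_zero (h2 : (2 : k) ≠ 0) {c : G} (hc : f c * f c = 1)
    (hdet : (f c).det = -1)
    (hirr : ∀ v : Fin 2 → k, v ≠ 0 → ¬ ∀ g, ∃ l : k, f g *ᵥ v = l • v) :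
    ∃ g, (f c * f g - f g * f c).det ≠ 0 := by
  classical
  have h00 := congrFun (congrFun hc 0) 0
  have h01 := congrFun (congrFun hc 0) 1
  have h10 := congrFun (congrFun hc 1) 0
  have h11 := congrFun (congrFun hc 1) 1
  simp [Matrix.mul_apply, Fin.sum_univ_two] at h00 h01 h10 h11
  rw [det_fin_two] at hdet
  have htr : f c 1 1 = -f c 0 0 := by
    linear_combination -(f c 0 0 + f c 1 1) * h00 + f c 0 0 * (h00 + hdet) + f c 0 1 * h10
  -- an eigenbasis of the involution
  obtain ⟨P, hP, hcP⟩ : ∃ P : M₂ k, P.det ≠ 0 ∧ f c * P = P * !![1, 0; 0, -1] := by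
    by_cases hb : f c 0 1 = 0
    · rw [hb, zero_mul, add_zero] at h00
      rcases mul_self_eq_one_iff.mp h00 with ha | ha
      · refine ⟨!![2, 0; f c 1 0, 1], by simp [det_fin_two, h2], ?_⟩
        ext i j
        fin_cases i <;> fin_cases j <;>
          simp [Matrix.mul_apply, Fin.sum_univ_two, hb, htr, ha]
        all_goals ring
      · refine ⟨!![0, 2; 1, -f c 1 0], by simp [det_fin_two, h2], ?_⟩
        ext i j
        fin_cases i <;> fin_cases j <;>
          simp [Matrix.mul_apply, Fin.sum_univ_two, hb, htr, ha]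
        all_goals ring
    · refine ⟨!![f c 0 1, f c 0 1; 1 - f c 0 0, -1 - f c 0 0], ?_, ?_⟩
      · rw [det_fin_two_of, show f c 0 1 * (-1 - f c 0 0) - f c 0 1 * (1 - f c 0 0) =
          -(2 * f c 0 1) by ring, neg_ne_zero]
        exact mul_ne_zero h2 hb
      · ext i j
        fin_cases i <;> fin_cases j <;> simp [Matrix.mul_apply, Fin.sum_univ_two, htr] <;>
          first
          | ring1
          | linear_combination h00
  have hPu : IsUnit P.det := isUnit_iff_ne_zero.mpr hP
  set F : G → M₂ k := fun g => P⁻¹ * f g * P with hF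
  have hFm : ∀ g h, F (g * h) = F g * F h := fun g h => by
    simp only [hF, map_mul, mul_assoc]
    rw [Matrix.mul_nonsing_inv_cancel_left P _ hPu]
  have hfP : ∀ g, f g * P = P * F g := fun g => by
    simp only [hF, mul_assoc]
    rw [Matrix.mul_nonsing_inv_cancel_left P _ hPu]
  by_contra hcon
  push Not at hcon
  have hbc : ∀ g, F g 0 1 * F g 1 0 = 0 := fun g => by
    have h := hcon g
    have e : (f c * f g - f g * f c) * P =
        P * (!![1, 0; 0, -1] * F g - F g * !![1, 0; 0, -1]) := by
      rw [sub_mul, mul_sub, mul_assoc, mul_assoc, hfP, hcP, ← mul_assoc, hcP, mul_assoc,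
        ← mul_assoc (f g), hfP, mul_assoc]
    have e' := congrArg Matrix.det e
    rw [det_mul, det_mul, h, zero_mul] at e'
    have := (mul_eq_zero.mp e'.symm).resolve_left hP
    simp [det_fin_two, Matrix.mul_apply, Fin.sum_univ_two, Matrix.vecMul, dotProduct] at this
    rcases this with h4 | h4
    · have h5 : 2 * F g 0 1 = 0 := by linear_combination h4
      rw [(mul_eq_zero.mp h5).resolve_left h2, zero_mul]
    · have h5 : 2 * F g 1 0 = 0 := by linear_combination -h4
      rw [(mul_eq_zero.mp h5).resolve_left h2, mul_zero]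
  have hcol : ∀ (j : Fin 2), (∀ g, ∀ i, i ≠ j → F g i j = 0) → False := fun j hj => by
    refine hirr (fun i => P i j) (fun h => hP ?_) fun g => ⟨F g j j, funext fun i => ?_⟩
    · exact Matrix.det_eq_zero_of_column_eq_zero j fun i => congrFun h i
    · show (f g * P) i j = F g j j * P i j
      rw [hfP, Matrix.mul_apply, Fin.sum_univ_two]
      obtain rfl | rfl : j = 0 ∨ j = 1 := by fin_cases j <;> simp
      · rw [hj g 1 (by decide)]; ring
      · rw [hj g 0 (by decide)]; ring
  by_cases hall : ∀ g, F g 1 0 = 0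
  · exact hcol 0 fun g i hi => by
      fin_cases i
      · exact absurd rfl hi
      · exact hall g
  push Not at hall
  obtain ⟨g₂, hg₂⟩ := hall
  have hb₂ : F g₂ 0 1 = 0 := (mul_eq_zero.mp (hbc g₂)).resolve_right hg₂
  refine hcol 1 fun g i hi => ?_
  fin_cases i
  swap
  · exact absurd rfl hi
  by_contra hg
  have hg' : F g 0 1 ≠ 0 := hg
  have hc₁ : F g 1 0 = 0 := (mul_eq_zero.mp (hbc g)).resolve_left hg'
  have hdetF : ∀ x, (F x).det ≠ 0 := fun x => by
    have hu : (f x).det * (f x⁻¹).det = 1 := by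
      rw [← det_mul, ← map_mul, mul_inv_cancel, map_one, det_one]
    simp only [hF, det_mul, det_nonsing_inv]
    exact mul_ne_zero (mul_ne_zero (by simpa using hP) (left_ne_zero_of_mul_eq_one hu)) hP
  have h := hbc (g * g₂)
  simp [hFm, Matrix.mul_apply, Fin.sum_univ_two, hb₂, hc₁, hg', hg₂] at h
  have d1 := hdetF g
  have d2 := hdetF g₂
  simp [det_fin_two, hb₂, hc₁] at d1 d2
  rcases h with h | h
  · exact d2.2 h
  · exact d1.2 h

end Residual

end FLTAgent.CarayolSquare.Galois
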