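import Mathlib.LinearAlgebra.Matrix.ToLin
import Mathlib.LinearAlgebra.Trace
import Mathlib.LinearAlgebra.Projection
import Mathlib.LinearAlgebra.Matrix.ToLinearEquiv
import Mathlib.RingTheory.Trace.Basic
import Mathlib.RingTheory.DiscreteValuationRing.Basic
import Mathlib.RingTheory.Ideal.Quotient.Index
import Mathlib.RingTheory.LocalRing.Quotient
import Mathlib.Algebra.Module.ZMod
import Mathlib.Algebra.Field.ZMod
import Mathlib.LinearAlgebra.Dimension.Free
import Mathlib.LinearAlgebra.Basis.VectorSpace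
import Mathlib.Tactic.LinearCombination

/-!
# Approximate projectors of a reduced finite free `ℤ`-algebra at a `p`-adic character

`exists_projector`: for every `n` an element outside a fixed power of the maximal ideal which
multiplies a small enough kernel of the character into the multiples of `p ^ n`.
-/

set_option autoImplicit false

noncomputable section

open Polynomial Matrix

namespace FLTAgent.CarayolSquare.Galois

/-- An integer matrix with `M² = c M`, `c ≠ 0`, and trace zero vanishes. -/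
theorem eq_zero_of_trace_eq_zero {ι : Type*} [Fintype ι] [DecidableEq ι] {M : Matrix ι ι ℤ}
    {c : ℤ} (hc : c ≠ 0) (h : M * M = c • M) (ht : M.trace = 0) : M = 0 := by
  let A : Matrix ι ι ℚ := (Int.castRingHom ℚ).mapMatrix M
  have hA : A * A = (c : ℚ) • A := by
    rw [← map_mul, h, map_zsmul, Int.cast_smul_eq_zsmul]
  let N : Matrix ι ι ℚ := (c : ℚ)⁻¹ • A
  have hN : IsIdempotentElem (toLin' N) := by
    rw [IsIdempotentElem, Module.End.mul_eq_comp, ← toLin'_mul]
    congr 1
    rw [smul_mul_smul_comm, hA, smul_smul]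
    congr 1
    field_simp
  have htr : LinearMap.trace ℚ _ (toLin' N) = 0 := by
    have hAM : A.trace = (M.trace : ℚ) := by simp [A, Matrix.trace]
    rw [trace_toLin'_eq, trace_smul, hAM, ht, Int.cast_zero, smul_zero]
  rw [((LinearMap.isProj_range_iff_isIdempotentElem _).mpr hN).trace, Nat.cast_eq_zero,
      Submodule.finrank_eq_zero,
    LinearMap.range_eq_bot, LinearEquiv.map_eq_zero_iff] at htr
  ext i j
  have := congrFun (congrFun htr i) j
  simpa [N, A, hc] using this

variable {T : Type} [CommRing T] [Module.Free ℤ T] [Module.Finite ℤ T] [IsReduced T]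

/-- The trace form of a reduced finite free `ℤ`-algebra is nondegenerate. -/
theorem eq_zero_of_trace_mul_eq_zero {t : T} (h : ∀ x, Algebra.trace ℤ T (t * x) = 0) : t = 0 := by
  classical
  obtain ⟨f, hfm, hf⟩ := Algebra.IsIntegral.isIntegral (R := ℤ) t
  obtain ⟨g, hfg, hg⟩ := exists_eq_pow_rootMultiplicity_mul_and_not_dvd f hfm.ne_zero 0
  rw [map_zero, sub_zero] at hfg hg
  set a := rootMultiplicity 0 f
  have hν : g.coeff 0 ≠ 0 := fun h0 => hg (X_dvd_iff.mpr h0)
  rw [← aeval_def, hfg, map_mul, map_pow, aeval_X] at hf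
  have htg : t * aeval t g = 0 := IsReduced.eq_zero _ ⟨a + 1, by
    rw [mul_pow, pow_succ t, pow_succ (aeval t g)]
    linear_combination (t * aeval t g ^ a) * hf⟩
  set w := aeval t g.divX
  have hgt : aeval t g = (g.coeff 0 : T) + t * w := by
    conv_lhs => rw [← X_mul_divX_add g]
    simp [w, add_comm]
  rw [hgt, mul_add] at htg
  let b := Module.Free.chooseBasis ℤ T
  have he : Algebra.leftMulMatrix b (t * w) = 0 := by
    refine eq_zero_of_trace_eq_zero (neg_ne_zero.mpr hν) ?_ ?_
    · rw [← map_mul, ← map_zsmul]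
      congr 1
      rw [neg_smul, zsmul_eq_mul]
      linear_combination w * htg
    · rw [← Algebra.trace_eq_matrix_trace b]
      exact h w
  rw [← map_zero (Algebra.leftMulMatrix b)] at he
  rw [Algebra.leftMulMatrix_injective b he, mul_zero, add_zero] at htg
  rw [mul_comm, ← zsmul_eq_mul] at htg
  exact (smul_eq_zero.mp htg).resolve_left hν

/-- Dual elements for the trace form, up to the discriminant. -/
theorem exists_dual : ∃ (ι : Type) (_ : Fintype ι) (_ : DecidableEq ι) (b : Module.Basis ι ℤ T)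
    (c : ι → T) (d : ℤ), d ≠ 0 ∧
      (∀ u : T, ∀ k, Algebra.trace ℤ T (u * c k) = d * b.repr u k) ∧
      (∀ u : T, d • u = ∑ i, Algebra.trace ℤ T (u * b i) • c i) ∧
      ∑ i, b i * c i = (d : T) := by
  classical
  let b := Module.Free.chooseBasis ℤ T
  let G : Matrix _ _ ℤ := Algebra.traceMatrix ℤ b
  have hGij : ∀ i j, G i j = Algebra.trace ℤ T (b i * b j) := fun i j => rfl
  have hlin : ∀ (u : T) (z : _ → ℤ), Algebra.trace ℤ T (u * ∑ j, z j • b j) =
      ∑ j, z j * Algebra.trace ℤ T (u * b j) := fun u z => by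
    rw [Finset.mul_sum, map_sum]
    exact Finset.sum_congr rfl fun j _ => by rw [mul_smul_comm, map_zsmul, smul_eq_mul]
  have hext : ∀ x y : T, (∀ j, Algebra.trace ℤ T (x * b j) = Algebra.trace ℤ T (y * b j)) →
      x = y := fun x y hxy => by
    refine sub_eq_zero.mp (eq_zero_of_trace_mul_eq_zero fun z => ?_)
    rw [← b.sum_repr z, hlin]
    exact Finset.sum_eq_zero fun j _ => by rw [sub_mul, map_sub, hxy, sub_self, mul_zero]
  have hdet : G.det ≠ 0 := fun h0 => by
    obtain ⟨v, hv, hv0⟩ := exists_mulVec_eq_zero_iff.mpr h0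
    refine hv (funext fun i => ?_)
    have hz : ∑ j, v j • b j = 0 := hext _ 0 fun j => by
      rw [zero_mul, map_zero, mul_comm, hlin]
      have := congrFun hv0 j
      simpa [mulVec, dotProduct, hGij, mul_comm] using this
    exact Fintype.linearIndependent_iff.mp b.linearIndependent v hz i
  let c : _ → T := fun i => ∑ j, G.adjugate i j • b j
  have hcb : ∀ i k, Algebra.trace ℤ T (b k * c i) = if i = k then G.det else 0 := fun i k => by
    have h1 : (G.adjugate * G) i k = if i = k then G.det else 0 := by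
      rw [adjugate_mul, Matrix.smul_apply, one_apply, smul_eq_mul, mul_ite, mul_one, mul_zero]
    rw [hlin, ← h1, Matrix.mul_apply]
    exact Finset.sum_congr rfl fun j _ => by rw [hGij, mul_comm (b k)]
  have hcoord : ∀ u : T, ∀ k, Algebra.trace ℤ T (u * c k) = G.det * b.repr u k := fun u k => by
    rw [mul_comm u]
    conv_lhs => rw [← b.sum_repr u]
    rw [hlin]
    simp [mul_comm (c k), hcb, mul_comm]
  refine ⟨Module.Free.ChooseBasisIndex ℤ T, inferInstance, inferInstance, b, c, G.det, hdet, hcoord,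
      fun u => hext _ _ fun k => ?_,
    hext _ _ fun k => ?_⟩
  · rw [Finset.sum_mul, map_sum, smul_mul_assoc, map_zsmul, smul_eq_mul]
    have h1 : ∀ i, Algebra.trace ℤ T ((Algebra.trace ℤ T (u * b i) • c i) * b k) =
        Algebra.trace ℤ T (u * b i) * if i = k then G.det else 0 := fun i => by
      rw [smul_mul_assoc, map_zsmul, smul_eq_mul, mul_comm (c i), hcb]
    rw [Finset.sum_congr rfl fun i _ => h1 i]
    simp [mul_comm]
  · rw [Finset.sum_mul, map_sum]
    have h1 : ∀ i, Algebra.trace ℤ T (b i * c i * b k) =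
        G.det * Algebra.leftMulMatrix b (b k) i i := fun i => by
      rw [Algebra.leftMulMatrix_eq_repr_mul, ← hcoord, mul_right_comm, mul_comm (b i) (b k)]
    simp only [h1, ← Finset.mul_sum]
    rw [← zsmul_one (R := T), smul_mul_assoc, one_mul, map_zsmul, smul_eq_mul,
      Algebra.trace_eq_matrix_trace b]
    rfl

/-- A finite vector space has a finite basis with integral coordinates, when the integers
surject onto the field. -/
theorem exists_basis_int (K Q : Type*) [Field K] [AddCommGroup Q] [Module K Q] [Finite Q]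
    (hK : Function.Surjective fun z : ℤ => (z : K)) : ∃ (f : ℕ) (b : Fin f → Q),
      (∀ x, ∃ z : Fin f → ℤ, ∑ k, z k • b k = x) ∧
        ∀ z : Fin f → ℤ, ∑ k, z k • b k = 0 → ∀ k, (z k : K) = 0 := by
  classical
  have : Module.Finite K Q := Module.Finite.of_finite
  let b := Module.finBasis K Q
  refine ⟨_, fun k => b k, fun x => ?_, fun z hz => ?_⟩
  · choose z hz using fun k => hK (b.repr x k)
    refine ⟨z, ?_⟩
    conv_rhs => rw [← b.sum_repr x]
    exact Finset.sum_congr rfl fun k _ => by rw [← hz, Int.cast_smul_eq_zsmul]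
  · refine Fintype.linearIndependent_iff.mp b.linearIndependent (fun k => (z k : K)) ?_
    simpa only [Int.cast_smul_eq_zsmul] using hz

/-- A finite abelian group killed by `p` has a basis modulo `p`. -/
theorem exists_basis_mod (p : ℕ) [Fact p.Prime] (Q : Type*) [AddCommGroup Q] [Finite Q]
    (h : ∀ x : Q, p • x = 0) : ∃ (f : ℕ) (b : Fin f → Q),
      (∀ x, ∃ z : Fin f → ℤ, ∑ k, z k • b k = x) ∧
        ∀ z : Fin f → ℤ, ∑ k, z k • b k = 0 → ∀ k, (p : ℤ) ∣ z k := by
  obtain ⟨f, b, hgen, hind⟩ := @exists_basis_int (ZMod p) Q (ZMod.instField p) _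
    (AddCommGroup.zmodModule h) _ ZMod.intCast_surjective
  exact ⟨f, b, hgen, fun z hz k => (ZMod.intCast_zmod_eq_zero_iff_dvd _ _).mp (hind z hz k)⟩

section Digits

variable {O : Type*} [CommRing O] [IsDomain O] [IsDiscreteValuationRing O]
  [Finite (IsLocalRing.ResidueField O)] [CharZero O] {p : ℕ} [Fact p.Prime]

/-- Coordinates modulo powers of `p`. -/
theorem exists_digits (_hpO : (p : O) ∈ IsLocalRing.maximalIdeal O) :
    ∃ (f e : ℕ) (B : Fin f → O), IsLocalRing.maximalIdeal O ^ e = Ideal.span {(p : O)} ∧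
      ∀ n, (∀ x : O, ∃ z : Fin f → ℤ, (p : O) ^ n ∣ x - ∑ k, (z k : O) * B k) ∧
        ∀ z : Fin f → ℤ, (p : O) ^ n ∣ ∑ k, (z k : O) * B k → ∀ k, (p : ℤ) ^ n ∣ z k := by
  have hp : p.Prime := Fact.out
  have hp0 : (p : O) ≠ 0 := Nat.cast_ne_zero.mpr hp.ne_zero
  obtain ⟨ϖ, hϖ⟩ := IsDiscreteValuationRing.exists_irreducible O
  obtain ⟨e, he⟩ := IsDiscreteValuationRing.associated_pow_irreducible hp0 hϖ
  have hspan : IsLocalRing.maximalIdeal O ^ e = Ideal.span {(p : O)} := by
    rw [hϖ.maximalIdeal_eq, Ideal.span_singleton_pow]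
    exact Ideal.span_singleton_eq_span_singleton.mpr he.symm
  set Q := O ⧸ Ideal.span {(p : O)}
  have : Finite Q := by
    have : Finite (O ⧸ IsLocalRing.maximalIdeal O) :=
        inferInstanceAs (Finite (IsLocalRing.ResidueField O))
    have := Ideal.finite_quotient_pow (R := O) (IsNoetherian.noetherian
      (IsLocalRing.maximalIdeal O)) e
    exact Finite.of_equiv _ (Ideal.quotEquivOfEq hspan).toEquiv
  obtain ⟨f, b, hgen, hind⟩ := exists_basis_mod p Q fun x => by
    obtain ⟨y, rfl⟩ := Ideal.Quotient.mk_surjective x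
    rw [← map_nsmul, Ideal.Quotient.eq_zero_iff_mem, nsmul_eq_mul]
    exact Ideal.mul_mem_right _ _ (Ideal.mem_span_singleton_self _)
  choose B hB using fun k => Ideal.Quotient.mk_surjective (b k)
  have hred : ∀ z : Fin f → ℤ,
      Ideal.Quotient.mk (Ideal.span {(p : O)}) (∑ k, (z k : O) * B k) = ∑ k, z k • b k :=
          fun z => by
    rw [map_sum]
    exact Finset.sum_congr rfl fun k _ => by rw [map_mul, map_intCast, hB, zsmul_eq_mul]
  have one : ∀ x : O, ∃ (z : Fin f → ℤ) (r : O), x = ∑ k, (z k : O) * B k + p * r := fun x => by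
    obtain ⟨z, hz⟩ := hgen (Ideal.Quotient.mk _ x)
    obtain ⟨r, hr⟩ : (p : O) ∣ x - ∑ k, (z k : O) * B k := by
      rw [← Ideal.mem_span_singleton, ← Ideal.Quotient.eq_zero_iff_mem, map_sub, hred, hz, sub_self]
    exact ⟨z, r, by linear_combination hr⟩
  refine ⟨_, e, B, hspan, fun n => ⟨fun x => ?_, fun z hz => ?_⟩⟩
  · induction n with
    | zero => exact ⟨0, by simp⟩
    | succ n ih =>
      obtain ⟨z, r, hr⟩ := ih
      obtain ⟨w, s, hs⟩ := one r
      refine ⟨fun k => z k + p ^ n * w k, s, ?_⟩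
      rw [hs] at hr
      simp only [Int.cast_add, Int.cast_mul, Int.cast_pow, Int.cast_natCast, add_mul, mul_assoc,
        Finset.sum_add_distrib, ← Finset.mul_sum]
      linear_combination hr
  · induction n generalizing z with
    | zero => intro k; simp
    | succ n ih =>
      have h1 : ∀ k, (p : ℤ) ∣ z k := fun k => by
        have h0 : Ideal.Quotient.mk (Ideal.span {(p : O)}) (∑ k, (z k : O) * B k) = 0 :=
          Ideal.Quotient.eq_zero_iff_mem.mpr
            (Ideal.mem_span_singleton.mpr ((dvd_pow_self _ n.succ_ne_zero).trans hz))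
        rw [hred] at h0
        exact hind z h0 k
      choose w hw using h1
      intro k
      rw [hw k, pow_succ']
      refine mul_dvd_mul_left _ (ih w ?_ k)
      simp only [hw, Int.cast_mul, Int.cast_natCast, mul_assoc, ← Finset.mul_sum, pow_succ'] at hz
      exact (mul_dvd_mul_iff_left hp0).mp hz

/-- Elements `y n` nonzero at `φ` and killing, modulo `p ^ n`, whatever is small at `φ`. -/
theorem exists_projector (hpO : (p : O) ∈ IsLocalRing.maximalIdeal O) (φ : T →+* O) :
    ∃ (c₂ : ℕ) (s : ℕ → ℕ), ∀ n, n ≤ s n ∧ ∃ y : T,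
      φ y ∉ IsLocalRing.maximalIdeal O ^ c₂ ∧
      ∀ t : T, φ t ∈ IsLocalRing.maximalIdeal O ^ s n → ∃ r : T, y * t = (p ^ n) • r := by
  obtain ⟨ι, _, _, b, c, d, hd, hrepr, hdual, hsum⟩ := exists_dual (T := T)
  obtain ⟨f, e, B, hspan, hdig⟩ := exists_digits hpO
  set I := IsLocalRing.maximalIdeal O
  have he : e ≠ 0 := fun h0 => by
    rw [h0, pow_zero, Ideal.one_eq_top] at hspan
    exact (IsLocalRing.mem_maximalIdeal _).mp hpO (Ideal.span_singleton_eq_top.mp hspan.symm)
  have hd2 : (d : O) * d ≠ 0 := mul_ne_zero (Int.cast_ne_zero.mpr hd) (Int.cast_ne_zero.mpr hd)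
  obtain ⟨c₂, hc₂⟩ : ∃ c₂, (d : O) * d ∉ I ^ c₂ := by
    by_contra h
    push Not at h
    obtain ⟨ϖ, hϖ⟩ := IsDiscreteValuationRing.exists_irreducible O
    obtain ⟨m, hm⟩ := IsDiscreteValuationRing.associated_pow_irreducible hd2 hϖ
    have h1 := h (m + 1)
    simp only [I, hϖ.maximalIdeal_eq, Ideal.span_singleton_pow, Ideal.mem_span_singleton] at h1
    have h2 := (pow_dvd_pow_iff hϖ.ne_zero hϖ.not_isUnit).mp (h1.trans hm.dvd)
    omega
  refine ⟨c₂, fun n => e * (n + c₂) + n, fun n => ⟨Nat.le_add_left _ _, ?_⟩⟩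
  set N := n + c₂
  choose z hz using fun i => (hdig N).1 (φ (c i))
  have hpN : ∀ x : O, (p : O) ^ N ∣ x → x ∈ I ^ c₂ := fun x hx => by
    refine Ideal.pow_le_pow_right (Nat.le_add_left c₂ n) ?_
    obtain ⟨r, rfl⟩ := hx
    exact Ideal.mul_mem_right _ _ (Ideal.pow_mem_pow hpO N)
  obtain ⟨k, hk⟩ : ∃ k, φ (d • ∑ i, z i k • b i) ∉ I ^ c₂ := by
    by_contra h
    push Not at h
    refine hc₂ ?_
    have h1 : (d : O) * d - ∑ k, B k * φ (d • ∑ i, z i k • b i) ∈ I ^ c₂ := by
      refine hpN _ ?_
      have h2 : (p : O) ^ N ∣ ∑ i, (d : O) * φ (b i) * (φ (c i) - ∑ k, (z i k : O) * B k) :=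
        Finset.dvd_sum fun i _ => Dvd.dvd.mul_left (hz i) _
      have h3 : (d : O) * d = ∑ i, (d : O) * φ (b i) * φ (c i) := by
        rw [show (d : O) = φ (∑ i, b i * c i) by rw [hsum, map_intCast]]
        simp only [map_sum, map_mul, mul_assoc, ← Finset.mul_sum]
      convert h2 using 1
      rw [h3]
      simp only [zsmul_eq_mul, map_mul, map_sum, map_intCast, mul_sub, Finset.mul_sum,
        Finset.sum_sub_distrib]
      rw [Finset.sum_comm]
      congr 1
      exact Finset.sum_congr rfl fun i _ => Finset.sum_congr rfl fun k _ => by ring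
    have := add_mem h1 (sum_mem fun k (_ : k ∈ Finset.univ) => Ideal.mul_mem_left _ (B k) (h k))
    rwa [sub_add_cancel] at this
  refine ⟨_, hk, fun t ht => ?_⟩
  have hdvd : ∀ j, (p : ℤ) ^ N ∣ ∑ i, z i k * Algebra.trace ℤ T (t * c j * b i) := fun j => by
    refine (hdig N).2 (fun l => ∑ i, z i l * Algebra.trace ℤ T (t * c j * b i)) ?_ k
    have h1 : (p : O) ^ N ∣ φ t := by
      have h2 : I ^ (e * N + n) ≤ Ideal.span {(p : O) ^ N} := by
        rw [← Ideal.span_singleton_pow, ← hspan, ← pow_mul]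
        exact Ideal.pow_le_pow_right (Nat.le_add_right _ _)
      exact Ideal.mem_span_singleton.mp (h2 ht)
    have h4 := congrArg φ (hdual (t * c j))
    simp only [zsmul_eq_mul, map_mul, map_sum, map_intCast] at h4
    have h5 : (p : O) ^ N ∣ ∑ i, (Algebra.trace ℤ T (t * c j * b i) : O) * φ (c i) := by
      rw [← h4]
      exact Dvd.dvd.mul_left (Dvd.dvd.mul_right h1 _) _
    have h6 : (p : O) ^ N ∣ ∑ i, (Algebra.trace ℤ T (t * c j * b i) : O) *
        (φ (c i) - ∑ l, (z i l : O) * B l) :=
      Finset.dvd_sum fun i _ => Dvd.dvd.mul_left (hz i) _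
    convert dvd_sub h5 h6 using 1
    simp only [mul_sub, Finset.sum_sub_distrib, sub_sub_cancel, Finset.mul_sum, Int.cast_sum,
      Int.cast_mul, Finset.sum_mul]
    rw [Finset.sum_comm]
    exact Finset.sum_congr rfl fun i _ => Finset.sum_congr rfl fun l _ => by ring
  choose m hm using fun j => (pow_dvd_pow (p : ℤ) (Nat.le_add_right n c₂)).trans (hdvd j)
  refine ⟨∑ j, m j • b j, b.ext_elem fun j => ?_⟩
  rw [smul_mul_assoc, map_zsmul, map_nsmul, Finsupp.smul_apply, Finsupp.smul_apply,
    b.repr_sum_self, smul_eq_mul, ← hrepr, nsmul_eq_mul, Nat.cast_pow, ← hm j,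
    Finset.sum_mul, Finset.sum_mul, map_sum]
  refine Finset.sum_congr rfl fun i _ => ?_
  rw [smul_mul_assoc, smul_mul_assoc, map_zsmul, smul_eq_mul,
    show b i * t * c j = t * c j * b i by ring]

end Digits

end FLTAgent.CarayolSquare.Galois
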